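/-
PROJECT D (S48, Deligne–Serre), part A, brick THINSET = Deligne–Serre Prop. 5.5, ABSTRACT CORE
(helper19).

For a sequence `a : ℕ → ℂ` whose values at the primes `p ∤ N` are algebraic integers of one number
field `K ⊆ ℂ`, and such that EVERY conjugate sequence `τ ∘ a` (`τ : K →+* ℂ`) satisfies the
Rankin bound `∑_{p ∈ P} ‖τ (a p)‖² p^{-s} ≤ log (1/(s-1)) + C_τ` (constant `1` in front of the
logarithm), the primes `p ∤ N` with `a p` outside a suitable FINITE set `Y` have upper Dirichlet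
density `≤ η`: `∑_{p ∈ P} p^{-s} ≤ η log (1/(s-1)) + C` for every finite set `P` of such primes.

`Y` is the set of algebraic integers of `K` all of whose conjugates have absolute value
`≤ √(d/η)`, `d = [K : ℚ]` (finite: `NumberField.Embeddings.finite_of_norm_le`).
No modular form occurs in this file.
-/
import Mathlib

set_option autoImplicit false

noncomputable section

namespace Fermat.Agent.S48.A.Thin.Core

open scoped BigOperators

/-- a prime is positive as a real number -/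
theorem prime_rpow_pos {p : ℕ} (hp : p.Prime) (s : ℝ) : 0 < (p : ℝ) ^ s :=
  Real.rpow_pos_of_pos (by exact_mod_cast hp.pos) s

/-- If some conjugate of `x` is larger than `B ≥ 0` in absolute value, the sum of the squares of
the absolute values of all conjugates exceeds `B ^ 2`. -/
theorem sq_lt_sum_of_lt {K : Type*} [Field K] [NumberField K] {B : ℝ} (hB : 0 ≤ B) {x : K}
    (φ : K →+* ℂ) (hφ : B < ‖φ x‖) : B ^ 2 < ∑ τ : K →+* ℂ, ‖τ x‖ ^ 2 := by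
  have h1 : B ^ 2 < ‖φ x‖ ^ 2 := by
    have := mul_self_lt_mul_self hB hφ
    simpa [sq] using this
  have h2 : ‖φ x‖ ^ 2 ≤ ∑ τ : K →+* ℂ, ‖τ x‖ ^ 2 :=
    Finset.single_le_sum (f := fun τ : K →+* ℂ => ‖τ x‖ ^ 2) (fun τ _ => sq_nonneg _)
      (Finset.mem_univ φ)
  exact lt_of_lt_of_le h1 h2

/-- **Deligne–Serre, Prop. 5.5 (abstract form).** -/
theorem thin_of_conj (N : ℕ) (a : ℕ → ℂ) (K : IntermediateField ℚ ℂ) [FiniteDimensional ℚ K]
    (hK : ∀ p : ℕ, p.Prime → ¬ p ∣ N → ∃ x : K, (x : ℂ) = a p ∧ IsIntegral ℤ x)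
    (hR : ∀ τ : K →+* ℂ, ∃ C : ℝ, ∀ s : ℝ, 1 < s → s ≤ 2 → ∀ P : Finset ℕ,
      (∀ p ∈ P, p.Prime ∧ ¬ p ∣ N) → ∀ x : ℕ → K, (∀ p ∈ P, (x p : ℂ) = a p) →
        ∑ p ∈ P, ‖τ (x p)‖ ^ 2 / (p : ℝ) ^ s ≤ Real.log (1 / (s - 1)) + C)
    {η : ℝ} (hη : 0 < η) :
    ∃ (Y : Finset ℂ) (C : ℝ), ∀ s : ℝ, 1 < s → s ≤ 2 → ∀ P : Finset ℕ,
      (∀ p ∈ P, p.Prime ∧ ¬ p ∣ N ∧ a p ∉ Y) →
        ∑ p ∈ P, 1 / (p : ℝ) ^ s ≤ η * Real.log (1 / (s - 1)) + C := by
  classical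
  have : NumberField K := ⟨⟩
  -- the degree, the threshold and the finite set
  set d : ℝ := (Fintype.card (K →+* ℂ) : ℝ) with hd
  have hdpos : 0 < d := by
    rw [hd, NumberField.Embeddings.card K ℂ]
    exact_mod_cast Module.finrank_pos
  set c : ℝ := d / η with hc
  have hcpos : 0 < c := div_pos hdpos hη
  set B : ℝ := Real.sqrt c with hBdef
  have hB0 : 0 ≤ B := Real.sqrt_nonneg c
  have hB2 : B ^ 2 = c := Real.sq_sqrt hcpos.le
  have hfin : {x : K | IsIntegral ℤ x ∧ ∀ φ : K →+* ℂ, ‖φ x‖ ≤ B}.Finite :=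
    NumberField.Embeddings.finite_of_norm_le K ℂ B
  have hfin' : ((fun x : K => (x : ℂ)) ''
      {x : K | IsIntegral ℤ x ∧ ∀ φ : K →+* ℂ, ‖φ x‖ ≤ B}).Finite := hfin.image _
  choose Cτ hCτ using hR
  refine ⟨hfin'.toFinset, (∑ τ : K →+* ℂ, Cτ τ) / c, ?_⟩
  intro s hs1 hs2 P hP
  -- representatives in `K`
  have hex : ∀ p : ℕ, ∃ x : K, p ∈ P → ((x : ℂ) = a p ∧ IsIntegral ℤ x) := by
    intro p
    by_cases hp : p ∈ P
    · obtain ⟨x, hx1, hx2⟩ := hK p (hP p hp).1 (hP p hp).2.1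
      exact ⟨x, fun _ => ⟨hx1, hx2⟩⟩
    · exact ⟨0, fun h => absurd h hp⟩
  choose x hx using hex
  have hP' : ∀ p ∈ P, p.Prime ∧ ¬ p ∣ N := fun p hp => ⟨(hP p hp).1, (hP p hp).2.1⟩
  have hxa : ∀ p ∈ P, (x p : ℂ) = a p := fun p hp => (hx p hp).1
  -- every term is dominated
  have hterm : ∀ p ∈ P, 1 / (p : ℝ) ^ s ≤
      (∑ τ : K →+* ℂ, ‖τ (x p)‖ ^ 2 / (p : ℝ) ^ s) / c := by
    intro p hp
    have hpp : 0 < (p : ℝ) ^ s := prime_rpow_pos (hP p hp).1 s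
    have hnotin : x p ∉ {x : K | IsIntegral ℤ x ∧ ∀ φ : K →+* ℂ, ‖φ x‖ ≤ B} := by
      intro hmem
      apply (hP p hp).2.2
      rw [Set.Finite.mem_toFinset]
      exact ⟨x p, hmem, hxa p hp⟩
    have hbig : ∃ φ : K →+* ℂ, B < ‖φ (x p)‖ := by
      by_contra hcon
      apply hnotin
      refine ⟨(hx p hp).2, fun φ => ?_⟩
      by_contra hlt
      exact hcon ⟨φ, not_le.mp hlt⟩
    obtain ⟨φ, hφ⟩ := hbig
    have hsum : c < ∑ τ : K →+* ℂ, ‖τ (x p)‖ ^ 2 := by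
      have := sq_lt_sum_of_lt hB0 φ hφ
      rwa [hB2] at this
    rw [← Finset.sum_div, div_div, div_le_div_iff₀ hpp (mul_pos hpp hcpos)]
    nlinarith [hsum, hpp]
  calc ∑ p ∈ P, 1 / (p : ℝ) ^ s
      ≤ ∑ p ∈ P, (∑ τ : K →+* ℂ, ‖τ (x p)‖ ^ 2 / (p : ℝ) ^ s) / c :=
        Finset.sum_le_sum hterm
    _ = (∑ τ : K →+* ℂ, ∑ p ∈ P, ‖τ (x p)‖ ^ 2 / (p : ℝ) ^ s) / c := by
        rw [← Finset.sum_div, Finset.sum_comm]
    _ ≤ (∑ τ : K →+* ℂ, (Real.log (1 / (s - 1)) + Cτ τ)) / c := by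
        apply div_le_div_of_nonneg_right _ hcpos.le
        exact Finset.sum_le_sum fun τ _ => hCτ τ s hs1 hs2 P hP' x hxa
    _ = η * Real.log (1 / (s - 1)) + (∑ τ : K →+* ℂ, Cτ τ) / c := by
        rw [Finset.sum_add_distrib, Finset.sum_const, Finset.card_univ, nsmul_eq_mul, add_div,
          ← hd, hc]
        congr 1
        field_simp

end Fermat.Agent.S48.A.Thin.Core

end
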