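/-
PROJECT D (S48, Deligne–Serre), part A, brick THINSET, file EXTEND (helper19). Mathlib only.

Every embedding `τ : K →+* ℂ` of a subfield `K ⊆ ℂ` algebraic over `ℚ` is the restriction of a
ring automorphism of `ℂ`:

  `exists_ringEquiv_extending K τ : ∃ σ : ℂ ≃+* ℂ, ∀ x : K, σ x = τ x`.

General form (`exists_algEquiv_of_cardinalMk`): two uncountable algebraically closed fields of the
same cardinality which are algebras over one countable field `R` are isomorphic AS `R`-ALGEBRAS
(transcendence bases of equal cardinality + uniqueness of the algebraic closure; the Mathlib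
classification `IsAlgClosed.equivOfTranscendenceBasis` redone keeping track of `R`).
-/
import Mathlib

set_option autoImplicit false

noncomputable section

namespace Fermat.Agent.S48.A.Thin.Extend

open Cardinal

/-- Two uncountable algebraically closed fields of the same cardinality, both algebras over a
countable field `R`, are isomorphic as `R`-algebras. -/
theorem exists_algEquiv_of_cardinalMk {R L M : Type} [Field R] [Field L] [Field M]
    [Algebra R L] [Algebra R M] [IsAlgClosed L] [IsAlgClosed M]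
    (hR : #R ≤ ℵ₀) (hL : ℵ₀ < #L) (hLM : #L = #M) : Nonempty (L ≃ₐ[R] M) := by
  obtain ⟨s, hs⟩ := exists_isTranscendenceBasis R L
  obtain ⟨t, ht⟩ := exists_isTranscendenceBasis R M
  have hM : ℵ₀ < #M := hLM ▸ hL
  have h1 : #L = #s :=
    IsAlgClosed.cardinal_eq_cardinal_transcendence_basis_of_aleph0_lt' _ hs hR hL
  have h2 : #M = #t :=
    IsAlgClosed.cardinal_eq_cardinal_transcendence_basis_of_aleph0_lt' _ ht hR hM
  have h3 : #s = #t := by rw [← h1, ← h2, hLM]
  obtain ⟨e⟩ := Cardinal.eq.1 h3
  have := IsAlgClosed.isAlgClosure_of_transcendence_basis _ hs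
  have := IsAlgClosed.isAlgClosure_of_transcendence_basis _ ht
  let E : Algebra.adjoin R (Set.range ((↑) : s → L)) ≃ₐ[R]
      Algebra.adjoin R (Set.range ((↑) : t → M)) :=
    hs.1.aevalEquiv.symm.trans ((MvPolynomial.renameEquiv R e).trans ht.1.aevalEquiv)
  let σ : L ≃+* M := IsAlgClosure.equivOfEquiv L M E.toRingEquiv
  refine ⟨AlgEquiv.ofRingEquiv (f := σ) ?_⟩
  intro r
  have hr : algebraMap R L r =
      algebraMap (Algebra.adjoin R (Set.range ((↑) : s → L))) L
        (algebraMap R (Algebra.adjoin R (Set.range ((↑) : s → L))) r) := rfl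
  rw [hr]
  show IsAlgClosure.equivOfEquiv L M E.toRingEquiv _ = _
  rw [IsAlgClosure.equivOfEquiv_algebraMap]
  show algebraMap (Algebra.adjoin R (Set.range ((↑) : t → M))) M
    (E (algebraMap R (Algebra.adjoin R (Set.range ((↑) : s → L))) r)) = _
  rw [E.commutes]
  rfl

/-- `ℂ` with the `K`-algebra structure given by an embedding `τ` -/
def Twist {K : Type} [Field K] (_τ : K →+* ℂ) : Type := ℂ

instance {K : Type} [Field K] (τ : K →+* ℂ) : Field (Twist τ) := inferInstanceAs (Field ℂ)

instance {K : Type} [Field K] (τ : K →+* ℂ) : IsAlgClosed (Twist τ) :=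
  inferInstanceAs (IsAlgClosed ℂ)

instance {K : Type} [Field K] (τ : K →+* ℂ) : Algebra K (Twist τ) :=
  (show Algebra K ℂ from τ.toAlgebra)

theorem algebraMap_twist {K : Type} [Field K] (τ : K →+* ℂ) (x : K) :
    (algebraMap K (Twist τ) x : ℂ) = τ x := rfl

/-- **Every embedding of an algebraic subfield of `ℂ` extends to an automorphism of `ℂ`.** -/
theorem exists_ringEquiv_extending (K : IntermediateField ℚ ℂ) [Algebra.IsAlgebraic ℚ K]
    (τ : K →+* ℂ) : ∃ σ : ℂ ≃+* ℂ, ∀ x : K, σ (x : ℂ) = τ x := by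
  have hK : #K ≤ ℵ₀ := by
    have h := Algebra.IsAlgebraic.cardinalMk_le_max ℚ K
    rwa [Cardinal.mkRat, max_self] at h
  have hC : ℵ₀ < #ℂ := by
    rw [Cardinal.mk_complex]
    exact Cardinal.aleph0_lt_continuum
  have hCT : #ℂ = #(Twist τ) := rfl
  obtain ⟨ψ⟩ := exists_algEquiv_of_cardinalMk (R := K) (L := ℂ) (M := Twist τ) hK hC hCT
  refine ⟨(ψ.toRingEquiv : ℂ ≃+* Twist τ), fun x => ?_⟩
  exact ψ.commutes x

end Fermat.Agent.S48.A.Thin.Extend

end
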