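/-
PROJECT D (S48, Deligne–Serre), part A, brick THINSET = Deligne–Serre Prop. 5.5 (helper19).

`thinSet_of : (conjugates exist) → (the a_p, p ∤ N, are integers of one number field) →
  RankinOne → ThinSet`

* `RankinOne` : the Rankin bound with constant `1` for every `(N, ε, f)` as in S48
  (brick A2: `∑_{p ∈ P} ‖a_p‖² p^{-s} ≤ log (1/(s-1)) + C` for `1 < s ≤ 2`).
* `ThinSet`   : for every `η > 0` there are a finite set `Y ⊆ ℂ` and a constant `C` with
  `∑_{p ∈ P} p^{-s} ≤ η log (1/(s-1)) + C` for every finite set `P` of primes `p ∤ N` with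
  `a_p ∉ Y` (the literal consumed by the final assembly, helper29).
* `hConj`     : every `Aut(ℂ)`-conjugate of a weight-one cusp form on `Γ₁(N)` is again one
  (brick A3, helper22).
* `hAlg`      : the `a_p`, `p ∤ N`, are algebraic integers of ONE subfield `K ⊆ ℂ` of finite degree
  (brick A3).

Proof: an embedding `τ` of `K` extends to `σ ∈ Aut(ℂ)` (`Extend`); the conjugate form `f^σ`
satisfies the Hecke relations with `σ ∘ ε`, so `RankinOne` applies to it: this is the hypothesis of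
`Core.thin_of_conj`.
-/
import Fermat.Agent.S48.Seam
import Fermat.Agent.S48.A.Thin.Core
import Fermat.Agent.S48.A.Thin.Extend

set_option autoImplicit false

noncomputable section

namespace Fermat.Agent.S48.A.Thin.Main

open CongruenceSubgroup
open scoped BigOperators

/-- the Rankin bound with constant `1` (brick A2) -/
def RankinOne : Prop :=
  ∀ (N : ℕ) [NeZero N] (ε : DirichletCharacter ℂ N) (f : CuspForm (Gamma1 N) 1),
    ModularFormClass.qCoeff f 1 = 1 → Seam.HeckeRel N ε f →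
    ∃ C : ℝ, ∀ s : ℝ, 1 < s → s ≤ 2 → ∀ P : Finset ℕ, (∀ p ∈ P, p.Prime ∧ ¬ p ∣ N) →
      ∑ p ∈ P, ‖ModularFormClass.qCoeff f p‖ ^ 2 / (p : ℝ) ^ s ≤ Real.log (1 / (s - 1)) + C

/-- Deligne–Serre Prop. 5.5: off a set of primes of upper Dirichlet density `≤ η` the `a_p` take
finitely many values. -/
def ThinSet : Prop :=
  ∀ (N : ℕ) [NeZero N] (ε : DirichletCharacter ℂ N) (f : CuspForm (Gamma1 N) 1),
    ModularFormClass.qCoeff f 1 = 1 → Seam.HeckeRel N ε f →
    ∀ η : ℝ, 0 < η → ∃ (Y : Finset ℂ) (C : ℝ), ∀ s : ℝ, 1 < s → s ≤ 2 → ∀ P : Finset ℕ,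
      (∀ p ∈ P, p.Prime ∧ ¬ p ∣ N ∧ ModularFormClass.qCoeff f p ∉ Y) →
        ∑ p ∈ P, 1 / (p : ℝ) ^ s ≤ η * Real.log (1 / (s - 1)) + C

/-- the conjugate of a form satisfying the Hecke relations with `ε` satisfies them with `σ ∘ ε` -/
theorem heckeRel_conj {N : ℕ} [NeZero N] (ε : DirichletCharacter ℂ N)
    (f f' : CuspForm (Gamma1 N) 1) (σ : ℂ ≃+* ℂ)
    (hf' : ∀ n, ModularFormClass.qCoeff f' n = σ (ModularFormClass.qCoeff f n))
    (hT : Seam.HeckeRel N ε f) :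
    Seam.HeckeRel N (ε.ringHomComp (σ : ℂ →+* ℂ)) f' := by
  intro p hp hpN n
  have h := congrArg σ (hT p hp hpN n)
  rw [map_add, map_mul, map_mul] at h
  simp only [hf', MulChar.ringHomComp_apply]
  by_cases hpn : p ∣ n
  · rw [if_pos hpn] at h ⊢
    exact h
  · rw [if_neg hpn] at h ⊢
    rw [map_zero] at h
    exact h

/-- **ThinSet from the conjugates (A3) and the Rankin bound (A2).** -/
theorem thinSet_of
    (hConj : ∀ (N : ℕ) [NeZero N] (σ : ℂ ≃+* ℂ) (f : CuspForm (Gamma1 N) 1),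
      ∃ f' : CuspForm (Gamma1 N) 1,
        ∀ n, ModularFormClass.qCoeff f' n = σ (ModularFormClass.qCoeff f n))
    (hAlg : ∀ (N : ℕ) [NeZero N] (ε : DirichletCharacter ℂ N) (f : CuspForm (Gamma1 N) 1),
      ModularFormClass.qCoeff f 1 = 1 → Seam.HeckeRel N ε f →
      ∃ K : IntermediateField ℚ ℂ, FiniteDimensional ℚ K ∧
        ∀ p : ℕ, p.Prime → ¬ p ∣ N →
          ∃ x : K, (x : ℂ) = ModularFormClass.qCoeff f p ∧ IsIntegral ℤ x)
    (hRankin : RankinOne) : ThinSet := by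
  intro N _ ε f h1 hT η hη
  obtain ⟨K, hfd, hK⟩ := hAlg N ε f h1 hT
  have := hfd
  refine Core.thin_of_conj N (fun n => ModularFormClass.qCoeff f n) K hK ?_ hη
  intro τ
  obtain ⟨σ, hσ⟩ := Extend.exists_ringEquiv_extending K τ
  obtain ⟨f', hf'⟩ := hConj N σ f
  have h1' : ModularFormClass.qCoeff f' 1 = 1 := by rw [hf', h1, map_one]
  have hT' := heckeRel_conj ε f f' σ hf' hT
  obtain ⟨C, hC⟩ := hRankin N (ε.ringHomComp (σ : ℂ →+* ℂ)) f' h1' hT'
  refine ⟨C, fun s hs1 hs2 P hP x hx => ?_⟩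
  have h := hC s hs1 hs2 P hP
  have hsum : ∑ p ∈ P, ‖τ (x p)‖ ^ 2 / (p : ℝ) ^ s =
      ∑ p ∈ P, ‖ModularFormClass.qCoeff f' p‖ ^ 2 / (p : ℝ) ^ s := by
    refine Finset.sum_congr rfl fun p hp => ?_
    rw [← hσ, hx p hp, ← hf']
  rw [hsum]
  exact h

end Fermat.Agent.S48.A.Thin.Main

end
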